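import Mathlib
import Fermat.Agent.LT.T7.H37.ThinSpec
import Fermat.Agent.LT.T7.H922.DictFQ

/-!
# Row LT, tower T7, leaf T7.13b `NormSplitC` (helper8) -- OFF-MAIN

`normSplitC_h8 : Fermat.Agent.LT.T7.H37.NormSplitC`, VERBATIM the Prop of
`LT/T7/H37/ThinSpec.lean` (helper37@8584ef06e, sha256 4c697dce).

Proof: by the dictionary of helper922 (`LT/T7/H922/DictFQ.lean`, sha256 80550eb1, leaf T7.06):
`fieldF ρ = ℚ(ζ₃)`, for `p ≠ 3` every place `w ∣ p` has norm `p ^ orderOf (p : ZMod 3)`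
(`absNorm_eq922`) and `orderOf (p : ZMod 3) = ordSL (ρ Frob_p)` (`ordSL_frob922`), which is `1`
when `det ρ(Frob_p) = 1`.  Exceptional set: `{3}`.
-/

set_option autoImplicit false
set_option linter.style.haveILetI false

open AutomorphicForm FLT.ExplicitLift EisensteinWeightOne
open IsDedekindDomain NumberField
open scoped MatrixGroups

noncomputable section

namespace Fermat.Agent.LT.T7.H8

open Fermat.Agent.LT.H130 Fermat.Agent.LT.H556 Fermat.Agent.LT.T7
open Fermat.Agent.LT.T7.H922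

local notation "Γℚ" => (AlgebraicClosure ℚ ≃ₐ[ℚ] AlgebraicClosure ℚ)

/-- **LEAF T7.13b `NormSplitC`.** -/
theorem normSplitC_h8 : Fermat.Agent.LT.T7.H37.NormSplitC := by
  intro ρ Ψ hyp nfF
  haveI := nfF
  haveI hcyc := isCyclotomicExtension_fieldF922 hyp
  refine ⟨{3}, ?_⟩
  intro p hp hpS V hV σ hσ hdet w hw
  have hp3 : p ≠ 3 := by simpa using hpS
  have hN := absNorm_eq922 (fieldF ρ) hp hp3 w hw
  rw [← ordSL_frob922 hyp hp hp3 hV hσ] at hN
  have h1 : ordSL (ρ σ) = 1 := by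
    unfold ordSL
    rw [if_pos hdet]
  rw [hN, h1, pow_one]

end Fermat.Agent.LT.T7.H8

end
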